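/-
S12 programme, brick 757 TORIC part 9a, MODEL for the Frey curve (helper28).

`P : FreyPackage`, `E = P.freyCurve.baseChange ℚ̄`, `t ∈ E[p]` nonzero with Galois-stable `⟨t⟩`.
Then Vélu's quotient curve `veluCurve E t p` (vocabulary `S12P/VeluDef51`) has a `p`-power-scaled
model over `ℤ`:

  `frey_exists_scaledModel : ∃ k W', Model57.IsScaledModel W' (veluCurve E t p) (p ^ k)`.

* Galois invariance of the coefficients: `VeluDef61.galois_veluCurve`;
* integrality at every `A ∣ ℓ ≠ p`: `VeluLem57.integralCoeffs_veluCurve51`, the coordinates of the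
  kernel points being `A`-integral (`xco_yco_mem_of_nsmul_eq_zero`: torsion of order prime to `ℓ`).
-/
import Mathlib
import Fermat.Agent.S12P.LocUnit28.Units
import Fermat.Agent.S12P.Model57.ScaleInt
import Fermat.Agent.S12P.VeluDef61.Galois
import Fermat.Agent.S12P.VeluLem57.Integral51

set_option autoImplicit false
set_option linter.unusedSectionVars false

open WeierstrassCurve WeierstrassCurve.Affine

namespace Fermat.Agent.S12P.KAsm28

open Fermat.Agent.S05.Kernel Fermat.Agent.S05.Inertia Fermat.Agent.InertiaMult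
open Fermat.Agent.MAZ.ModInv (xco yco)
open Fermat.Agent.S12P.LocUnit28
open Fermat.Agent.S12P.VeluDef51

section General

variable {L : Type*} [Field L] [DecidableEq L] (W : WeierstrassCurve ℤ) {A : ValuationSubring L}

/-- a point killed by `n ∈ Aˣ` has `A`-integral coordinates. -/
theorem xco_yco_mem_of_nsmul_eq_zero {n : ℕ} (hvn : A.valuation ((n : ℕ) : L) = 1)
    {VL : Affine L} (hVL : VL = (W.map (Int.castRingHom L)).toAffine) {R : VL.Point}
    (hR : n • R = 0) : xco VL R ∈ A ∧ yco VL R ∈ A := by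
  classical
  subst hVL
  have hint : IntegralCoeffs A.valuation (W.map (Int.castRingHom L)).toAffine :=
    integralCoeffs_map W
  rcases R with _ | ⟨x, y, hns⟩
  · exact ⟨A.zero_mem, A.zero_mem⟩
  have hvx : A.valuation x ≤ 1 := x_integral_of_nsmul_eq_zero hint hns hvn hR
  have hvy : A.valuation y ≤ 1 := val_y_le_one hint hns.1 hvx
  exact ⟨(A.valuation_le_one_iff x).mp hvx, (A.valuation_le_one_iff y).mp hvy⟩

end General

section Frey

local notation "Qb" => AlgebraicClosure ℚ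

variable (P : FreyPackage)

/-- the coefficients of the Frey curve over `ℚ̄` lie in every valuation subring. -/
theorem frey_integralCoeffs (A : ValuationSubring Qb) :
    Fermat.Agent.S12P.VeluLem57.IntegralCoeffs A (P.freyCurve.baseChange Qb) := by
  have h : P.freyCurve.baseChange Qb = P.freyCurveInt.map (Int.castRingHom Qb) :=
    freyCurve_baseChange_eq_map P
  rw [h]
  refine ⟨?_, ?_, ?_, ?_, ?_⟩
  · rw [map_a₁, eq_intCast]; exact intCast_mem A _
  · rw [map_a₂, eq_intCast]; exact intCast_mem A _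
  · rw [map_a₃, eq_intCast]; exact intCast_mem A _
  · rw [map_a₄, eq_intCast]; exact intCast_mem A _
  · rw [map_a₆, eq_intCast]; exact intCast_mem A _

/-- integrality of the coordinates of the kernel points at `A ∣ ℓ ≠ p`. -/
theorem frey_xco_yco_mem {t : (P.freyCurve⁄Qb).Point} (ht : P.p • t = 0) {ℓ : ℕ}
    (hℓ : ℓ.Prime) (hℓp : ℓ ≠ P.p) {A : ValuationSubring Qb} (hA : A.LiesOverPrime ℓ) (k : ℕ) :
    xco (P.freyCurve⁄Qb) (k • t) ∈ A ∧ yco (P.freyCurve⁄Qb) (k • t) ∈ A :=
  xco_yco_mem_of_nsmul_eq_zero P.freyCurveInt (valuation_prime_eq_one hℓ hA P.pp hℓp)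
    (freyCurve_baseChange_eq_map P) (by rw [smul_comm, ht, nsmul_zero])

/-- Vélu's quotient of the Frey curve has `A`-integral coefficients at every `A ∣ ℓ ≠ p`. -/
theorem frey_integralCoeffs_veluCurve {t : (P.freyCurve⁄Qb).Point} (ht : P.p • t = 0) {ℓ : ℕ}
    (hℓ : ℓ.Prime) (hℓp : ℓ ≠ P.p) {A : ValuationSubring Qb} (hA : A.LiesOverPrime ℓ) :
    Fermat.Agent.S12P.VeluLem57.IntegralCoeffs A
      (veluCurve (P.freyCurve.baseChange Qb) t P.p) :=
  Fermat.Agent.S12P.VeluLem57.integralCoeffs_veluCurve51 t P.p (frey_integralCoeffs P A)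
    (fun k _ => (frey_xco_yco_mem P ht hℓ hℓp hA k).1)
    (fun k _ => (frey_xco_yco_mem P ht hℓ hℓp hA k).2)

/-- **9a MODEL for the Frey curve**: Vélu's quotient by a Galois-stable subgroup `⟨t⟩` of order `p`
has a `p`-power-scaled model over `ℤ`. -/
theorem frey_exists_scaledModel {t : (P.freyCurve⁄Qb).Point} (ht : P.p • t = 0) (ht0 : t ≠ 0)
    (hstab : ∀ σ : Qb ≃ₐ[ℚ] Qb, σ • t ∈ AddSubgroup.zmultiples t) :
    ∃ (k : ℕ) (W' : WeierstrassCurve ℤ),
      Fermat.Agent.S12P.Model57.IsScaledModel W'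
        (veluCurve (P.freyCurve.baseChange Qb) t P.p) ((P.p : Qb) ^ k) := by
  refine Fermat.Agent.S12P.Model57.exists_scaledModel_of_map _ (fun σ => ?_)
    (fun ℓ hℓ hℓp A hA => ?_)
  · exact Fermat.Agent.S12P.VeluDef61.galois_veluCurve σ P.pp ht ht0 (hstab σ)
  · have h := frey_integralCoeffs_veluCurve P ht hℓ hℓp hA
    exact ⟨h.a₁, h.a₂, h.a₃, h.a₄, h.a₆⟩

/-- the scaling factor is a unit at every place over `ℓ ≠ p`. -/
theorem valuation_p_pow_eq_one {ℓ : ℕ} (hℓ : ℓ.Prime) (hℓp : ℓ ≠ P.p) {A : ValuationSubring Qb}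
    (hA : A.LiesOverPrime ℓ) (k : ℕ) : A.valuation ((P.p : Qb) ^ k) = 1 := by
  rw [map_pow, valuation_prime_eq_one hℓ hA P.pp hℓp, one_pow]

/-- the scaling factor is nonzero. -/
theorem p_pow_ne_zero (k : ℕ) : ((P.p : Qb) ^ k) ≠ 0 :=
  pow_ne_zero _ (Nat.cast_ne_zero.mpr P.hp0)

end Frey

end Fermat.Agent.S12P.KAsm28
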