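/-
S12 programme, K-ASM (helper28), part 1: the global step.

* `rat_eq_one_or_neg_one` : a rational number which is a unit at one place of `ℚ̄` above every prime
  is `±1`.
* `sq_eq_of_local` : `r, r'` rational, `r' ≠ 0`, and at one place `A` above every prime
  `v_A(r) = v_A(4)^n v_A(r')`; then `r² = 16^n r'²`.
-/
import Mathlib
import Fermat.Prelude.Def_FLTPrelim_Ramification
import Fermat.Agent.S05.Inertia

set_option autoImplicit false
set_option linter.unusedSectionVars false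

namespace Fermat.Agent.S12P.KAsm28

open Fermat.Agent.S05.Inertia

local notation "Qb" => AlgebraicClosure ℚ

/-- A rational number which is a unit at one place above every prime is `±1`. -/
theorem rat_eq_one_or_neg_one (q : ℚ)
    (h : ∀ ℓ : ℕ, ℓ.Prime → ∃ A : ValuationSubring Qb, A.LiesOverPrime ℓ ∧
      A.valuation (algebraMap ℚ Qb q) = 1) : q = 1 ∨ q = -1 := by
  have hcast : algebraMap ℚ Qb q = ((q.num : ℤ) : Qb) / ((q.den : ℕ) : Qb) := by
    rw [eq_ratCast]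
    exact Rat.cast_def q
  have hden0 : ((q.den : ℕ) : Qb) ≠ 0 := Nat.cast_ne_zero.mpr q.den_nz
  have hprime : ∀ ℓ : ℕ, ℓ.Prime → ¬ ℓ ∣ q.num.natAbs ∧ ¬ ℓ ∣ q.den := by
    intro ℓ hℓ
    obtain ⟨A, hA, hv⟩ := h ℓ hℓ
    rw [hcast, map_div₀] at hv
    have hvd0 : A.valuation ((q.den : ℕ) : Qb) ≠ 0 := (map_ne_zero _).mpr hden0
    have hv' : A.valuation ((q.num : ℤ) : Qb) = A.valuation ((q.den : ℕ) : Qb) := by
      rw [div_eq_one_iff_eq hvd0] at hv
      exact hv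
    have hcop : q.num.natAbs.Coprime q.den := q.reduced
    constructor
    · intro hd
      have hd' : (ℓ : ℤ) ∣ q.num := Int.natCast_dvd.mpr hd
      have hnd : ¬ ℓ ∣ q.den := fun hd2 =>
        hℓ.one_lt.ne' (Nat.eq_one_of_dvd_coprimes hcop hd hd2)
      have h1 : A.valuation ((q.num : ℤ) : Qb) < 1 :=
        (valuation_intCast_lt_one_iff hℓ hA _).mpr hd'
      have h2 : A.valuation ((q.den : ℕ) : Qb) = 1 := valuation_natCast_eq_one hℓ hA hnd
      rw [hv', h2] at h1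
      exact lt_irrefl _ h1
    · intro hd
      have hnn : ¬ (ℓ : ℤ) ∣ q.num := fun hd2 =>
        hℓ.one_lt.ne' (Nat.eq_one_of_dvd_coprimes hcop (Int.natCast_dvd.mp hd2) hd)
      have h1 : A.valuation ((q.den : ℕ) : Qb) < 1 :=
        (valuation_natCast_lt_one_iff hℓ hA _).mpr hd
      have h2 : A.valuation ((q.num : ℤ) : Qb) = 1 := valuation_intCast_eq_one hℓ hA hnn
      rw [← hv', h2] at h1
      exact lt_irrefl _ h1
  have hnum : q.num.natAbs = 1 :=
    Nat.eq_one_iff_not_exists_prime_dvd.mpr fun ℓ hℓ => (hprime ℓ hℓ).1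
  have hden : q.den = 1 := Nat.eq_one_iff_not_exists_prime_dvd.mpr fun ℓ hℓ => (hprime ℓ hℓ).2
  have hq : q = (q.num : ℚ) := by
    conv_lhs => rw [← Rat.num_div_den q, hden]
    simp
  rcases Int.natAbs_eq q.num with h1 | h1
  · left; rw [hq, h1, hnum]; simp
  · right; rw [hq, h1, hnum]; simp

/-- **The global step.** -/
theorem sq_eq_of_local {r r' : Qb} {n : ℕ} (hr : r ∈ (algebraMap ℚ Qb).range)
    (hr' : r' ∈ (algebraMap ℚ Qb).range) (hr'0 : r' ≠ 0)
    (h : ∀ ℓ : ℕ, ℓ.Prime → ∃ A : ValuationSubring Qb, A.LiesOverPrime ℓ ∧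
      A.valuation r = A.valuation (4 : Qb) ^ n * A.valuation r') :
    r ^ 2 = 16 ^ n * r' ^ 2 := by
  obtain ⟨ρ, rfl⟩ := hr
  obtain ⟨ρ', rfl⟩ := hr'
  have hρ'0 : ρ' ≠ 0 := fun h0 => hr'0 (by rw [h0, map_zero])
  set q : ℚ := ρ / (4 ^ n * ρ') with hq
  have hqc : algebraMap ℚ Qb q = algebraMap ℚ Qb ρ / (4 ^ n * algebraMap ℚ Qb ρ') := by
    rw [hq, map_div₀, map_mul, map_pow, map_ofNat]
  have hq1 : q = 1 ∨ q = -1 := by
    apply rat_eq_one_or_neg_one
    intro ℓ hℓ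
    obtain ⟨A, hA, hv⟩ := h ℓ hℓ
    refine ⟨A, hA, ?_⟩
    rw [hqc, map_div₀, map_mul, map_pow, hv]
    have hne : A.valuation (4 : Qb) ^ n * A.valuation (algebraMap ℚ Qb ρ') ≠ 0 :=
      mul_ne_zero (pow_ne_zero _ ((map_ne_zero _).mpr (by norm_num))) ((map_ne_zero _).mpr hr'0)
    exact div_self hne
  have hq2 : q ^ 2 = 1 := by
    rcases hq1 with h1 | h1 <;> rw [h1] <;> norm_num
  have hρ : ρ ^ 2 = 16 ^ n * ρ' ^ 2 := by
    have h4n : (4 : ℚ) ^ n ≠ 0 := pow_ne_zero _ (by norm_num)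
    have : ρ = q * (4 ^ n * ρ') := by
      rw [hq]; field_simp
    rw [this, mul_pow, hq2, one_mul, mul_pow, ← pow_mul, mul_comm n 2, pow_mul]
    norm_num
  have := congrArg (algebraMap ℚ Qb) hρ
  simpa only [map_pow, map_mul, map_ofNat] using this

end Fermat.Agent.S12P.KAsm28
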