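/-
S12 programme, K-ASM (helper28), part 2: products over the multiples of a torsion point.

* `prod_Ico_nsmul_nsmul` : multiplication by `j` prime to `p` permutes the nonzero multiples of a
  point killed by `p` (product form of `VeluDef61.sum_Ico_nsmul_nsmul`).
* `sq_prod_half` : for an even function `h` and `p = 2m + 1`, `p • t = 0`:
  `(∏_{k=1}^m h(k t))² = ∏_{k=1}^{p-1} h(k t)`.
* `xco_neg`, `xco_smul` : `x(-R) = x(R)`, `x(σ R) = σ (x R)`.
* `full_prod_fixed` / `full_prod_mem_range` : if `σ t ∈ ⟨t⟩` for all `σ` and `e` is rational, then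
  `∏_{k=1}^{p-1} (x(k t) - e)` is rational.
-/
import Mathlib
import Fermat.Agent.S12P.VeluDef61.Galois
import Fermat.Agent.S13.AtPSuper

set_option autoImplicit false
set_option linter.unusedSectionVars false

open WeierstrassCurve
open scoped WeierstrassCurve.Affine

namespace Fermat.Agent.S12P.KAsm28

open Fermat.Agent.MAZ.ModInv (xco)
open Fermat.Agent.S12P.VeluDef61

section General

variable {G : Type*} [AddGroup G] {M : Type*} [CommMonoid M]

/-- product form of `sum_Ico_nsmul_nsmul`. -/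
theorem prod_Ico_nsmul_nsmul (g : G → M) {Q : G} {p : ℕ} (hp : p.Prime) (hQ : p • Q = 0) {j : ℕ}
    (hj : ¬ p ∣ j) :
    ∏ k ∈ Finset.Ico 1 p, g (k • (j • Q)) = ∏ k ∈ Finset.Ico 1 p, g (k • Q) := by
  have h := sum_Ico_nsmul_nsmul (M := Additive M) (fun R => Additive.ofMul (g R)) hp hQ hj
  have h' := congrArg Additive.toMul h
  simpa only [toMul_sum, toMul_ofMul] using h'

end General

section Half

variable {G : Type*} [AddCommGroup G] {M : Type*} [CommMonoid M]

/-- the square of the half product of an even function is the full product. -/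
theorem sq_prod_half (h : G → M) (heven : ∀ R, h (-R) = h R) {t : G} {p m : ℕ}
    (hpm : p = 2 * m + 1) (ht : p • t = 0) :
    (∏ k ∈ Finset.Ico 1 (m + 1), h (k • t)) ^ 2 = ∏ k ∈ Finset.Ico 1 p, h (k • t) := by
  have hsplit : ∏ k ∈ Finset.Ico 1 p, h (k • t) =
      (∏ k ∈ Finset.Ico 1 (m + 1), h (k • t)) * ∏ k ∈ Finset.Ico (m + 1) p, h (k • t) :=
    (Finset.prod_Ico_consecutive _ (by omega) (by omega)).symm
  have hrefl : ∏ k ∈ Finset.Ico 1 (m + 1), h ((p - k) • t) =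
      ∏ k ∈ Finset.Ico (m + 1) p, h (k • t) := by
    have := Finset.prod_Ico_reflect (fun k => h (k • t)) 1 (m := m + 1) (n := p) (by omega)
    rw [this]
    congr 1
    congr 1 <;> omega
  have hneg : ∀ k ∈ Finset.Ico 1 (m + 1), h ((p - k) • t) = h (k • t) := by
    intro k hk
    rw [Finset.mem_Ico] at hk
    have hkp : k ≤ p := by omega
    have : (p - k) • t = -(k • t) := by
      rw [eq_neg_iff_add_eq_zero, ← add_nsmul, Nat.sub_add_cancel hkp, ht]
    rw [this, heven]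
  rw [hsplit, ← hrefl, Finset.prod_congr rfl hneg, sq]

end Half

section Points

variable {R : Type*} [CommRing R] {W₀ : WeierstrassCurve R}
variable {K : Type*} [Field K] [DecidableEq K] [Algebra R K]

theorem xco_neg (S : (W₀⁄K).Point) : xco (W₀⁄K) (-S) = xco (W₀⁄K) S := by
  cases S with
  | zero => rfl
  | some x y h => rfl

theorem xco_smul (σ : K ≃ₐ[R] K) (S : (W₀⁄K).Point) :
    xco (W₀⁄K) (σ • S) = σ (xco (W₀⁄K) S) :=
  xco_map σ.toAlgHom S

theorem smul_nsmul (σ : K ≃ₐ[R] K) (k : ℕ) (S : (W₀⁄K).Point) : σ • (k • S) = k • (σ • S) := by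
  have := Affine.Point.algEquiv_smul_zsmul σ (k : ℤ) S
  rwa [natCast_zsmul, natCast_zsmul] at this

/-- the full product `∏_{k=1}^{p-1} (x(k t) - e)` is fixed by `σ` as soon as `σ t = j t`, `p ∤ j`,
and `σ e = e`. -/
theorem full_prod_fixed {t : (W₀⁄K).Point} {p : ℕ} (hp : p.Prime) (ht : p • t = 0)
    (σ : K ≃ₐ[R] K) {j : ℕ} (hj : ¬ p ∣ j) (hσ : σ • t = j • t) {e : K} (he : σ e = e) :
    σ (∏ k ∈ Finset.Ico 1 p, (xco (W₀⁄K) (k • t) - e)) =
      ∏ k ∈ Finset.Ico 1 p, (xco (W₀⁄K) (k • t) - e) := by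
  rw [map_prod]
  have h1 : ∀ k ∈ Finset.Ico 1 p, σ (xco (W₀⁄K) (k • t) - e) =
      xco (W₀⁄K) (k • (j • t)) - e := by
    intro k _
    rw [map_sub, he, ← xco_smul, smul_nsmul, hσ]
  rw [Finset.prod_congr rfl h1]
  exact prod_Ico_nsmul_nsmul (fun S => xco (W₀⁄K) S - e) hp ht hj

end Points

section Qbar

local notation "Qb" => AlgebraicClosure ℚ

variable {W₀ : WeierstrassCurve ℚ}

/-- rationality of the full products. -/
theorem full_prod_mem_range {t : (W₀⁄Qb).Point} {p : ℕ} (hp : p.Prime) (ht : p • t = 0)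
    (hgal : ∀ σ : Qb ≃ₐ[ℚ] Qb, ∃ j : ℕ, ¬ p ∣ j ∧ σ • t = j • t) (e : ℚ) :
    ∏ k ∈ Finset.Ico 1 p, (xco (W₀⁄Qb) (k • t) - algebraMap ℚ Qb e) ∈ (algebraMap ℚ Qb).range := by
  obtain ⟨q, hq⟩ := Fermat.Agent.S13.AtPSuper.exists_rat_of_fixed' _ (fun σ => by
    obtain ⟨j, hj, hσ⟩ := hgal σ
    exact full_prod_fixed hp ht σ hj hσ (σ.commutes e))
  exact ⟨q, hq⟩

end Qbar

end Fermat.Agent.S12P.KAsm28
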