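/-
S12 programme, K-ASM (helper28), part 3: the identity (K) from TORIC, LOC-P and the Galois action, all
as explicit hypotheses on a point `t : (P.freyCurve⁄ℚ̄).Point`.

`F₁ = ∏_{k=1}^{p-1} x(kt)`, `F₂ = ∏ (x(kt) - a^p/4)`, `F₃ = ∏ (x(kt) + b^p/4)` (full products).

* `fLocal_of_inZero` : `A | ℓ ≠ p`, `t` in the zero component at `A`:
  `v(F₁) = v(4)^(p-1) v(F₂) = v(F₃)`, `v(F₂) ≠ 0`  (from `LocUnit28.frey_units_nsmul`).
* `fLocal_of_locP`   : the same at `A | p` when `v(x(kt) - a^p/4) = v(x(kt)) = v(x(kt) + b^p/4) ≠ 0`.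
* `K_core` : `R₁⁴ = 16^(p-1) R₂⁴ = R₃⁴` for the half products `Rᵢ` (`k = 1..m`, `p = 2m+1`).
-/
import Mathlib
import Fermat.Agent.S12P.LocUnit28.Units
import Fermat.Agent.S12P.KAsm28.Global
import Fermat.Agent.S12P.KAsm28.Products
import Fermat.Agent.S13.UnramVal

set_option autoImplicit false
set_option linter.unusedSectionVars false

open WeierstrassCurve WeierstrassCurve.Affine

namespace Fermat.Agent.S12P.KAsm28

open Fermat.Agent.S05.Inertia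
open Fermat.Agent.MAZ.Loc44 (InZero)
open Fermat.Agent.MAZ.ModInv (xco)
open Fermat.Agent.S12P.LocUnit28

local notation "Qb" => AlgebraicClosure ℚ

variable (P : FreyPackage)

/-- `F₁ = ∏_{k ∈ s} x(kt)`. -/
noncomputable def F₁ (t : (P.freyCurve⁄Qb).Point) (s : Finset ℕ) : Qb :=
  ∏ k ∈ s, xco (P.freyCurve⁄Qb) (k • t)

/-- `F₂ = ∏_{k ∈ s} (x(kt) - a^p/4)`. -/
noncomputable def F₂ (t : (P.freyCurve⁄Qb).Point) (s : Finset ℕ) : Qb :=
  ∏ k ∈ s, (xco (P.freyCurve⁄Qb) (k • t) - ((P.a : ℤ) : Qb) ^ P.p / 4)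

/-- `F₃ = ∏_{k ∈ s} (x(kt) + b^p/4)`. -/
noncomputable def F₃ (t : (P.freyCurve⁄Qb).Point) (s : Finset ℕ) : Qb :=
  ∏ k ∈ s, (xco (P.freyCurve⁄Qb) (k • t) + ((P.b : ℤ) : Qb) ^ P.p / 4)

/-- the local statement at `A`. -/
def FLocal (A : ValuationSubring Qb) (t : (P.freyCurve⁄Qb).Point) (s : Finset ℕ) : Prop :=
  A.valuation (F₁ P t s) = A.valuation (4 : Qb) ^ s.card * A.valuation (F₂ P t s) ∧
    A.valuation (F₃ P t s) = A.valuation (4 : Qb) ^ s.card * A.valuation (F₂ P t s) ∧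
    A.valuation (F₂ P t s) ≠ 0

variable {P} {A : ValuationSubring Qb} {t : (P.freyCurve⁄Qb).Point}

/-- termwise criterion. -/
theorem fLocal_of_termwise {s : Finset ℕ}
    (h : ∀ k ∈ s,
      A.valuation (xco (P.freyCurve⁄Qb) (k • t)) = A.valuation (4 : Qb) *
        A.valuation (xco (P.freyCurve⁄Qb) (k • t) - ((P.a : ℤ) : Qb) ^ P.p / 4) ∧
      A.valuation (xco (P.freyCurve⁄Qb) (k • t) + ((P.b : ℤ) : Qb) ^ P.p / 4) =
        A.valuation (4 : Qb) *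
          A.valuation (xco (P.freyCurve⁄Qb) (k • t) - ((P.a : ℤ) : Qb) ^ P.p / 4) ∧
      A.valuation (xco (P.freyCurve⁄Qb) (k • t) - ((P.a : ℤ) : Qb) ^ P.p / 4) ≠ 0) :
    FLocal P A t s := by
  unfold FLocal F₁ F₂ F₃
  rw [map_prod, map_prod, map_prod, ← Finset.prod_const, ← Finset.prod_mul_distrib]
  refine ⟨Finset.prod_congr rfl fun k hk => (h k hk).1,
    Finset.prod_congr rfl fun k hk => (h k hk).2.1,
    Finset.prod_ne_zero_iff.mpr fun k hk => (h k hk).2.2⟩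

/-- LOC-UNIT / LOC-2: the local statement at a place over `ℓ ≠ p` where `t` is in the zero
component. -/
theorem fLocal_of_inZero {ℓ : ℕ} (hℓ : ℓ.Prime) (hℓp : ℓ ≠ P.p) (hA : A.LiesOverPrime ℓ)
    (ht : P.p • t = 0) (ht0 : t ≠ 0) (hin : InZero P.freyCurveInt A t) {s : Finset ℕ}
    (hs : ∀ k ∈ s, ¬ P.p ∣ k) : FLocal P A t s := by
  refine fLocal_of_termwise fun k hk => ?_
  obtain ⟨h1, h2, h3⟩ := frey_units_nsmul P hℓ hℓp hA t ht ht0 hin (hs k hk)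
  have h4 : (4 : Qb) ≠ 0 := by norm_num
  have hv4 : A.valuation (4 : Qb) ≠ 0 := (map_ne_zero _).mpr h4
  have e : A.valuation (4 : Qb) *
      A.valuation (xco (P.freyCurve⁄Qb) (k • t) - ((P.a : ℤ) : Qb) ^ P.p / 4) = 1 := by
    rw [← map_mul, show (4 : Qb) * (xco (P.freyCurve⁄Qb) (k • t) - ((P.a : ℤ) : Qb) ^ P.p / 4) =
      4 * xco (P.freyCurve⁄Qb) (k • t) - ((P.a : ℤ) : Qb) ^ P.p by ring, h2]
  refine ⟨by rw [h1, e], by rw [h3, e], fun h0 => ?_⟩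
  rw [h0, mul_zero] at e
  exact zero_ne_one e

/-- LOC-P: the local statement at a place over `p`. -/
theorem fLocal_of_locP (hA : A.LiesOverPrime P.p) {s : Finset ℕ}
    (h : ∀ k ∈ s,
      A.valuation (xco (P.freyCurve⁄Qb) (k • t) - ((P.a : ℤ) : Qb) ^ P.p / 4) =
        A.valuation (xco (P.freyCurve⁄Qb) (k • t)) ∧
      A.valuation (xco (P.freyCurve⁄Qb) (k • t) + ((P.b : ℤ) : Qb) ^ P.p / 4) =
        A.valuation (xco (P.freyCurve⁄Qb) (k • t)) ∧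
      1 < A.valuation (xco (P.freyCurve⁄Qb) (k • t))) : FLocal P A t s := by
  have hp2 : P.p ≠ 2 := by have := P.hp5; omega
  have hv4 : A.valuation (4 : Qb) = 1 := val_four_eq_one (valuation_two_eq_one P.pp hA hp2)
  refine fLocal_of_termwise fun k hk => ?_
  obtain ⟨h2, h3, h1⟩ := h k hk
  rw [hv4, one_mul, h2, h3]
  exact ⟨rfl, rfl, (lt_trans zero_lt_one h1).ne'⟩

/-- **K-ASM, core form.**  `t` a nonzero `p`-torsion point of the Frey curve over `ℚ̄` such that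
* (Galois) every `σ` maps `t` to a multiple `j • t`, `p ∤ j`;
* (TORIC) over every prime `ℓ ∣ abc`, `ℓ ≠ p`, there is a place where `t` is in the zero component;
* (LOC-P) over `p` there is a place where the three `x(kt) - eᵢ` have the same valuation `> 1`.
Then `R₁⁴ = 16^(p-1) R₂⁴ = R₃⁴` for the half products. -/
theorem K_core {m : ℕ} (hpm : P.p = 2 * m + 1) (ht : P.p • t = 0) (ht0 : t ≠ 0)
    (hgal : ∀ σ : Qb ≃ₐ[ℚ] Qb, ∃ j : ℕ, ¬ P.p ∣ j ∧ σ • t = j • t)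
    (hTORIC : ∀ ℓ : ℕ, ℓ.Prime → ℓ ≠ P.p → (ℓ : ℤ) ∣ P.a * P.b * P.c →
      ∃ A : ValuationSubring Qb, A.LiesOverPrime ℓ ∧ InZero P.freyCurveInt A t)
    (hLOCP : ∃ A : ValuationSubring Qb, A.LiesOverPrime P.p ∧ ∀ k ∈ Finset.Ico 1 P.p,
      A.valuation (xco (P.freyCurve⁄Qb) (k • t) - ((P.a : ℤ) : Qb) ^ P.p / 4) =
        A.valuation (xco (P.freyCurve⁄Qb) (k • t)) ∧
      A.valuation (xco (P.freyCurve⁄Qb) (k • t) + ((P.b : ℤ) : Qb) ^ P.p / 4) =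
        A.valuation (xco (P.freyCurve⁄Qb) (k • t)) ∧
      1 < A.valuation (xco (P.freyCurve⁄Qb) (k • t))) :
    (∏ k ∈ Finset.Ico 1 (m + 1), xco (P.freyCurve⁄Qb) (k • t)) ^ 4 =
        16 ^ (P.p - 1) * (∏ k ∈ Finset.Ico 1 (m + 1),
          (xco (P.freyCurve⁄Qb) (k • t) - ((P.a : ℤ) : Qb) ^ P.p / 4)) ^ 4 ∧
      (∏ k ∈ Finset.Ico 1 (m + 1),
          (xco (P.freyCurve⁄Qb) (k • t) + ((P.b : ℤ) : Qb) ^ P.p / 4)) ^ 4 =
        16 ^ (P.p - 1) * (∏ k ∈ Finset.Ico 1 (m + 1),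
          (xco (P.freyCurve⁄Qb) (k • t) - ((P.a : ℤ) : Qb) ^ P.p / 4)) ^ 4 := by
  have hs : ∀ k ∈ Finset.Ico 1 P.p, ¬ P.p ∣ k := fun k hk hd => by
    rw [Finset.mem_Ico] at hk
    have := Nat.le_of_dvd (by omega) hd
    omega
  have hcard : (Finset.Ico 1 P.p).card = P.p - 1 := by simp
  -- the local statement over every prime
  have hloc : ∀ ℓ : ℕ, ℓ.Prime →
      ∃ A : ValuationSubring Qb, A.LiesOverPrime ℓ ∧ FLocal P A t (Finset.Ico 1 P.p) := by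
    intro ℓ hℓ
    by_cases hℓp : ℓ = P.p
    · subst hℓp
      obtain ⟨A, hA, hx⟩ := hLOCP
      exact ⟨A, hA, fLocal_of_locP hA hx⟩
    · by_cases habc : (ℓ : ℤ) ∣ P.a * P.b * P.c
      · obtain ⟨A, hA, hin⟩ := hTORIC ℓ hℓ hℓp habc
        exact ⟨A, hA, fLocal_of_inZero hℓ hℓp hA ht ht0 hin hs⟩
      · obtain ⟨A, hA⟩ := Fermat.Agent.S13.UnramVal.exists_liesOverPrime (L := Qb) hℓ
        exact ⟨A, hA, fLocal_of_inZero hℓ hℓp hA ht ht0
          (frey_inZero_of_not_dvd_abc P hℓ hA habc t) hs⟩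
  -- rationality of the full products
  have hrat : ∀ e : ℚ, ∏ k ∈ Finset.Ico 1 P.p,
      (xco (P.freyCurve⁄Qb) (k • t) - algebraMap ℚ Qb e) ∈ (algebraMap ℚ Qb).range :=
    fun e => full_prod_mem_range P.pp ht hgal e
  have hrat₁ : F₁ P t (Finset.Ico 1 P.p) ∈ (algebraMap ℚ Qb).range := by
    have := hrat 0
    unfold F₁
    simpa only [map_zero, sub_zero] using this
  have hrat₂ : F₂ P t (Finset.Ico 1 P.p) ∈ (algebraMap ℚ Qb).range := by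
    have := hrat (((P.a : ℤ) : ℚ) ^ P.p / 4)
    unfold F₂
    simpa only [map_div₀, map_pow, map_intCast, map_ofNat] using this
  have hrat₃ : F₃ P t (Finset.Ico 1 P.p) ∈ (algebraMap ℚ Qb).range := by
    have := hrat (-(((P.b : ℤ) : ℚ) ^ P.p / 4))
    unfold F₃
    simpa only [map_neg, map_div₀, map_pow, map_intCast, map_ofNat, sub_neg_eq_add] using this
  have hF₂0 : F₂ P t (Finset.Ico 1 P.p) ≠ 0 := by
    obtain ⟨A, -, -, -, h0⟩ := hloc 2 Nat.prime_two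
    exact (map_ne_zero _).mp h0
  -- the global step
  have hK₁ : F₁ P t (Finset.Ico 1 P.p) ^ 2 = 16 ^ (P.p - 1) * F₂ P t (Finset.Ico 1 P.p) ^ 2 :=
    sq_eq_of_local hrat₁ hrat₂ hF₂0 fun ℓ hℓ => by
      obtain ⟨A, hA, h1, -, -⟩ := hloc ℓ hℓ
      rw [hcard] at h1
      exact ⟨A, hA, h1⟩
  have hK₃ : F₃ P t (Finset.Ico 1 P.p) ^ 2 = 16 ^ (P.p - 1) * F₂ P t (Finset.Ico 1 P.p) ^ 2 :=
    sq_eq_of_local hrat₃ hrat₂ hF₂0 fun ℓ hℓ => by
      obtain ⟨A, hA, -, h3, -⟩ := hloc ℓ hℓ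
      rw [hcard] at h3
      exact ⟨A, hA, h3⟩
  -- half products
  have half : ∀ e : Qb, (∏ k ∈ Finset.Ico 1 (m + 1), (xco (P.freyCurve⁄Qb) (k • t) - e)) ^ 4 =
      (∏ k ∈ Finset.Ico 1 P.p, (xco (P.freyCurve⁄Qb) (k • t) - e)) ^ 2 := by
    intro e
    rw [← sq_prod_half (fun S => xco (P.freyCurve⁄Qb) S - e)
      (fun S => by rw [xco_neg]) hpm ht, ← pow_mul]
  have half₁ := half 0
  have half₂ := half (((P.a : ℤ) : Qb) ^ P.p / 4)
  have half₃ := half (-(((P.b : ℤ) : Qb) ^ P.p / 4))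
  simp only [sub_zero, sub_neg_eq_add] at half₁ half₃
  rw [half₁, half₂, half₃]
  exact ⟨hK₁, hK₃⟩

end Fermat.Agent.S12P.KAsm28
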