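/-
S12 programme, brick K-ASM (helper28): **the identity (K) for a cofixed line of the Frey curve.**

`P : FreyPackage`, `N ⊂ E[p]` a Galois-stable line with trivial action on `E[p]/N` (the data of
`HasGaloisStableCofixedLine`), TORIC as an explicit hypothesis (every point of `N` lies in the zero
component at every place over every `ℓ ≠ p`), `t ∈ N` nonzero, `p = 2m + 1`,

  `R₁ = ∏_{k=1}^m x(kt)`,  `R₂ = ∏_{k=1}^m (x(kt) - a^p/4)`,  `R₃ = ∏_{k=1}^m (x(kt) + b^p/4)`.

Then `R₁⁴ = 16^(p-1) R₂⁴ = R₃⁴` (`frey_K`).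

Inputs: LOC-UNIT/LOC-2 (`LocUnit28.frey_units_nsmul`), LOC-P (`LocP78.valuation_xco_sub_two_torsion`,
`LocP78.one_lt_valuation_xco`), Galois action on the line (`LocP78.Abstract.exists_smul_of_finrank_two`
and `Embed48.ESide.finrank_tors`), rationality of the full products (`KAsm28.full_prod_mem_range`), and
"a rational unit everywhere is `±1`" (`KAsm28.rat_eq_one_or_neg_one`).
-/
import Mathlib
import Fermat.Agent.S12P.KAsm28.Core
import Fermat.Agent.S12P.LocP78.Main

set_option autoImplicit false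
set_option linter.unusedSectionVars false
set_option linter.style.haveILetI false

open WeierstrassCurve WeierstrassCurve.Affine WeierstrassCurve.Affine.Point

namespace Fermat.Agent.S12P.KAsm28

open Fermat.Agent.S05.Inertia
open Fermat.Agent.MAZ.Loc44 (InZero)
open Fermat.Agent.MAZ.ModInv (xco)
open Fermat.Agent.S12P.LocUnit28
open Fermat.Agent.T1B.Embed48

local notation "Qb" => AlgebraicClosure ℚ

variable (P : FreyPackage)

/-- coercion of multiples from `E[p]` to the points. -/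
theorem coe_nsmul_tors (k : ℕ) (t : Submodule.torsionBy ℤ (P.freyCurve⁄Qb).Point P.p) :
    ((k • t : Submodule.torsionBy ℤ (P.freyCurve⁄Qb).Point P.p) : (P.freyCurve⁄Qb).Point) =
      k • (t : (P.freyCurve⁄Qb).Point) := by
  induction k with
  | zero => simp
  | succ k ih => rw [succ_nsmul, succ_nsmul, Submodule.coe_add, ih]

theorem nsmul_tors_eq_zero (t : Submodule.torsionBy ℤ (P.freyCurve⁄Qb).Point P.p) :
    P.p • (t : (P.freyCurve⁄Qb).Point) = 0 := by
  have := t.2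
  rw [Submodule.mem_torsionBy_iff, natCast_zsmul] at this
  exact this

/-- the scalar action of `ZMod p` on `E[p]` through representatives. -/
theorem zmod_smul_tors (c : ZMod P.p) (t : Submodule.torsionBy ℤ (P.freyCurve⁄Qb).Point P.p) :
    c • t = c.val • t := by
  haveI : NeZero P.p := ⟨P.hp0⟩
  conv_lhs => rw [← ZMod.natCast_zmod_val c]
  exact Nat.cast_smul_eq_nsmul (ZMod P.p) c.val t

/-- **K-ASM**: the identity (K) for a cofixed line of the Frey curve, with TORIC as a hypothesis. -/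
theorem frey_K (N : Submodule (ZMod P.p) (Submodule.torsionBy ℤ (P.freyCurve⁄Qb).Point P.p))
    (hstab : IsGaloisStable ℚ N) (hbot : N ≠ ⊥) (htop : N ≠ ⊤)
    (hcof : ∀ σ : Qb ≃ₐ[ℚ] Qb,
      ∀ x : Submodule.torsionBy ℤ (P.freyCurve⁄Qb).Point P.p, σ • x - x ∈ N)
    (htoric : ∀ {ℓ : ℕ}, ℓ.Prime → ℓ ≠ P.p → ∀ A : ValuationSubring Qb, A.LiesOverPrime ℓ →
      ∀ s ∈ N, InZero P.freyCurveInt A (s : (P.freyCurve⁄Qb).Point))
    {t : Submodule.torsionBy ℤ (P.freyCurve⁄Qb).Point P.p} (htN : t ∈ N) (ht0 : t ≠ 0)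
    {m : ℕ} (hpm : P.p = 2 * m + 1) :
    (∏ k ∈ Finset.Ico 1 (m + 1),
        xco (P.freyCurve⁄Qb) (k • (t : (P.freyCurve⁄Qb).Point))) ^ 4 =
      16 ^ (P.p - 1) * (∏ k ∈ Finset.Ico 1 (m + 1),
        (xco (P.freyCurve⁄Qb) (k • (t : (P.freyCurve⁄Qb).Point)) -
          ((P.a : ℤ) : Qb) ^ P.p / 4)) ^ 4 ∧
    (∏ k ∈ Finset.Ico 1 (m + 1),
        (xco (P.freyCurve⁄Qb) (k • (t : (P.freyCurve⁄Qb).Point)) +
          ((P.b : ℤ) : Qb) ^ P.p / 4)) ^ 4 =
      16 ^ (P.p - 1) * (∏ k ∈ Finset.Ico 1 (m + 1),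
        (xco (P.freyCurve⁄Qb) (k • (t : (P.freyCurve⁄Qb).Point)) -
          ((P.a : ℤ) : Qb) ^ P.p / 4)) ^ 4 := by
  haveI : Fact P.p.Prime := ⟨P.pp⟩
  haveI : NeZero P.p := ⟨P.hp0⟩
  have hp2 : P.p ≠ 2 := by have := P.hp5; omega
  have hΔ : P.freyCurve.Δ ≠ 0 := Fermat.Agent.S13.Supersingular.freyCurve_Δ_ne_zero P
  haveI := ESide.module_finite_tors P.freyCurve P.p hp2
  have h2 := ESide.finrank_tors P.freyCurve P.p hΔ hp2
  have hline := Fermat.Agent.S12P.LocP78.Abstract.exists_smul_of_finrank_two h2 N htop htN ht0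
  have htp : P.p • (t : (P.freyCurve⁄Qb).Point) = 0 := nsmul_tors_eq_zero P t
  have htp0 : (t : (P.freyCurve⁄Qb).Point) ≠ 0 := fun h => ht0 (Subtype.ext h)
  -- multiples of `t` prime to `p` are nonzero elements of `N`
  have hmult : ∀ k : ℕ, ¬ P.p ∣ k → k • t ∈ N ∧ k • t ≠ 0 := by
    intro k hk
    refine ⟨N.nsmul_mem htN k, fun h0 => ?_⟩
    have h0' : k • (t : (P.freyCurve⁄Qb).Point) = 0 := by
      rw [← coe_nsmul_tors, h0]; rfl
    exact Fermat.Agent.MAZ.Loc44.nsmul_ne_zero_of_not_dvd P.pp htp htp0 hk h0'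
  refine K_core hpm htp htp0 ?_ ?_ ?_
  · -- the Galois action
    intro σ
    obtain ⟨c, hc⟩ := hline (σ • t) (hstab σ t htN)
    refine ⟨c.val, ?_, ?_⟩
    · intro hd
      have hc0 : c = 0 := by
        have hlt : c.val < P.p := ZMod.val_lt c
        have : c.val = 0 := Nat.eq_zero_of_dvd_of_lt hd hlt
        exact (ZMod.val_eq_zero c).mp this
      rw [hc0, zero_smul] at hc
      have : t = 0 := by
        have h1 : σ⁻¹ • (σ • t) = t := inv_smul_smul σ t
        rw [hc, smul_zero] at h1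
        exact h1.symm
      exact ht0 this
    · have := congrArg (Subtype.val) hc
      rw [zmod_smul_tors, coe_nsmul_tors] at this
      exact this
  · -- TORIC
    intro ℓ hℓ hℓp _
    obtain ⟨A, hA⟩ := Fermat.Agent.S13.UnramVal.exists_liesOverPrime (L := Qb) hℓ
    exact ⟨A, hA, htoric hℓ hℓp A hA t htN⟩
  · -- LOC-P
    obtain ⟨A, hA⟩ := Fermat.Agent.S13.UnramVal.exists_liesOverPrime (L := Qb) P.pp
    refine ⟨A, hA, fun k hk => ?_⟩
    have hkp : ¬ P.p ∣ k := fun hd => by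
      rw [Finset.mem_Ico] at hk
      have := Nat.le_of_dvd (by omega) hd
      omega
    obtain ⟨hkN, hk0⟩ := hmult k hkp
    have h1 := Fermat.Agent.S12P.LocP78.valuation_xco_sub_two_torsion P hA N hbot htop hcof hkN hk0
    have h3 := Fermat.Agent.S12P.LocP78.one_lt_valuation_xco P hA N hbot htop hcof hkN hk0
    rw [coe_nsmul_tors] at h1 h3
    exact ⟨h1.1, h1.2, h3⟩

end Fermat.Agent.S12P.KAsm28
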