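/-
S12 programme (helper28): **S12 from TORIC.**  `K-ASM` (`KAsm28.frey_K`) + `AN-BRIDGE/FREY`
(`AnBridge78.frey_false_of_K`): a Galois-stable cofixed line `N` of the Frey curve all of whose points
lie in the zero component at every place over every prime `ℓ ≠ p` cannot exist.  Hence
`¬ HasGaloisStableCofixedLine ℚ P.freyCurve P.p` as soon as TORIC holds for every such line.
-/
import Mathlib
import Fermat.Prelude.Def_FLTPrelim_CofixedLine
import Fermat.Agent.S12P.KAsm28.Main
import Fermat.Agent.S12P.AnBridge78.Frey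

set_option autoImplicit false
set_option linter.unusedSectionVars false

open WeierstrassCurve WeierstrassCurve.Affine WeierstrassCurve.Affine.Point

namespace Fermat.Agent.S12P.KAsm28

open Fermat.Agent.MAZ.Loc44 (InZero)

local notation "Qb" => AlgebraicClosure ℚ

variable (P : FreyPackage)

/-- the TORIC statement for a line `N`: every point of `N` lies in the zero component at every place
over every prime `ℓ ≠ p`. -/
def ToricLine (N : Submodule (ZMod P.p) (Submodule.torsionBy ℤ (P.freyCurve⁄Qb).Point P.p)) :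
    Prop :=
  ∀ {ℓ : ℕ}, ℓ.Prime → ℓ ≠ P.p → ∀ A : ValuationSubring Qb, A.LiesOverPrime ℓ →
    ∀ s ∈ N, InZero P.freyCurveInt A (s : (P.freyCurve⁄Qb).Point)

/-- A toric Galois-stable cofixed line does not exist. -/
theorem false_of_toricLine
    (N : Submodule (ZMod P.p) (Submodule.torsionBy ℤ (P.freyCurve⁄Qb).Point P.p))
    (hstab : IsGaloisStable ℚ N) (hbot : N ≠ ⊥) (htop : N ≠ ⊤)
    (hcof : ∀ σ : Qb ≃ₐ[ℚ] Qb,
      ∀ x : Submodule.torsionBy ℤ (P.freyCurve⁄Qb).Point P.p, σ • x - x ∈ N)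
    (htoric : ToricLine P N) : False := by
  have : Fact P.p.Prime := ⟨P.pp⟩
  obtain ⟨t, htN, ht0⟩ := Submodule.exists_mem_ne_zero_of_ne_bot hbot
  obtain ⟨m, hpm⟩ := P.hp_odd
  have hK := frey_K P N hstab hbot htop hcof (fun {ℓ} => htoric) htN ht0 hpm
  have htp : P.p • (t : (P.freyCurve⁄Qb).Point) = 0 := nsmul_tors_eq_zero P t
  have htp0 : (t : (P.freyCurve⁄Qb).Point) ≠ 0 := fun h => ht0 (Subtype.ext h)
  exact Fermat.Agent.S12P.AnBridge78.frey_false_of_K P hpm (t : (P.freyCurve⁄Qb).Point)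
    (addOrderOf_eq_prime htp htp0) hK

/-- **S12 from TORIC.** -/
theorem not_hasGaloisStableCofixedLine_of_toric
    (htoric : ∀ N : Submodule (ZMod P.p) (Submodule.torsionBy ℤ (P.freyCurve⁄Qb).Point P.p),
      IsGaloisStable ℚ N → N ≠ ⊥ → N ≠ ⊤ →
      (∀ σ : Qb ≃ₐ[ℚ] Qb,
        ∀ x : Submodule.torsionBy ℤ (P.freyCurve⁄Qb).Point P.p, σ • x - x ∈ N) →
      ToricLine P N) :
    ¬ HasGaloisStableCofixedLine (K := Qb) ℚ P.freyCurve P.p := by
  rintro ⟨N, hstab, hbot, htop, hcof⟩
  exact false_of_toricLine P N hstab hbot htop hcof (htoric N hstab hbot htop hcof)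

end Fermat.Agent.S12P.KAsm28
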